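import Fermat.Agent.LT.A2.H54.LocFinSpec

/-!
# Row LT, tower A2, leaf A2.03.1.1.06.15 `LF54.LeafRopSb` (helper487), OFF-MAIN

`leafRopSb_h487 : LF54.LeafRopSb`, VERBATIM against `LT/A2/H54/LocFinSpec.lean`
(helper54@26071c838, sha256 8ccd9c5c6ed3304a), byte-identical copy.  Mathlib only.

Proof.  A continuous unitary character `ψ` of an ultrametric normed field is trivial on a ball
(`ψ = 1` near `0` up to `< 1`, the ball is stable under `x ↦ x + x`, and a unit complex number
`z` with `‖z^(2^j) - 1‖ < 1` for all `j` is `1`: `1 - Re z^(2^(j+1)) ≥ 3 (1 - Re z^(2^j))`), hence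
locally constant.  `c = 0`: `rOp h Φ = const · (ψ ∘ (a b Q)) · Φ(a ·)`.  `c ≠ 0`:
`rOp h Φ = const · (ψ ∘ (a Q / c)) · FT(ψ(d Q / c) Φ)(- · / c)`.
-/

set_option autoImplicit false

open IsDedekindDomain NumberField MeasureTheory
open scoped Topology

noncomputable section

namespace Fermat.Agent.LT.A2.H487

open Fermat.Agent.LT.A2 Fermat.Agent.LT.A2.WX467 Fermat.Agent.LT.A2.LF54

/-! ## 1. Unit complex numbers -/

/-- A unit complex number at distance `< 1` from `1` has real part `> 1/2`. -/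
theorem re_gt_half487 (w : ℂ) (hw : ‖w‖ = 1) (h : ‖w - 1‖ < 1) : 1 / 2 < w.re := by
  have h1 : ‖w - 1‖ ^ 2 < 1 := by
    have h0 : 0 ≤ ‖w - 1‖ := norm_nonneg _
    nlinarith
  have h2 : ‖w‖ ^ 2 = 1 := by rw [hw]; norm_num
  rw [Complex.sq_norm, Complex.normSq_apply] at h1 h2
  simp only [Complex.sub_re, Complex.sub_im, Complex.one_re, Complex.one_im, sub_zero] at h1
  nlinarith

/-- The real part of the square of a unit complex number. -/
theorem re_sq487 (w : ℂ) (hw : ‖w‖ = 1) : (w ^ 2).re = 2 * w.re ^ 2 - 1 := by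
  have h2 : ‖w‖ ^ 2 = 1 := by rw [hw]; norm_num
  rw [Complex.sq_norm, Complex.normSq_apply] at h2
  rw [pow_two, Complex.mul_re]
  nlinarith

/-- A unit complex number all of whose powers `z^(2^j)` are at distance `< 1` from `1` is `1`. -/
theorem eq_one_of_pow_close487 (z : ℂ) (hz : ‖z‖ = 1)
    (h : ∀ j : ℕ, ‖z ^ (2 ^ j) - 1‖ < 1) : z = 1 := by
  have hn : ∀ j : ℕ, ‖z ^ (2 ^ j)‖ = 1 := fun j => by rw [norm_pow, hz, one_pow]
  have hre : ∀ j : ℕ, 1 / 2 < (z ^ (2 ^ j)).re := fun j => re_gt_half487 _ (hn j) (h j)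
  have hle : ∀ j : ℕ, (z ^ (2 ^ j)).re ≤ 1 := fun j => by
    have := Complex.re_le_norm (z ^ (2 ^ j))
    rw [hn j] at this
    exact this
  have hstep : ∀ j : ℕ, 3 ^ j * (1 - z.re) ≤ 1 - (z ^ (2 ^ j)).re := by
    intro j
    induction j with
    | zero => simp
    | succ j ih =>
      have e : z ^ (2 ^ (j + 1)) = (z ^ (2 ^ j)) ^ 2 := by
        rw [← pow_mul, pow_succ]
      rw [e, re_sq487 _ (hn j)]
      have h1 := hre j
      have h2 := hle j
      have h3 : (3 : ℝ) ^ (j + 1) * (1 - z.re) = 3 * (3 ^ j * (1 - z.re)) := by ring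
      rw [h3]
      nlinarith
  have hre1 : z.re = 1 := by
    by_contra hne
    have hlt : z.re < 1 := by
      have h0 := hle 0
      simp only [pow_zero, pow_one] at h0
      exact lt_of_le_of_ne h0 hne
    have hpos : 0 < 1 - z.re := by linarith
    obtain ⟨j, hj⟩ := pow_unbounded_of_one_lt (1 / (1 - z.re)) (by norm_num : (1 : ℝ) < 3)
    have h4 : 1 < 3 ^ j * (1 - z.re) := by
      rw [div_lt_iff₀ hpos] at hj
      exact hj
    have h5 := hstep j
    have h6 := hre j
    linarith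
  have h2 : ‖z‖ ^ 2 = 1 := by rw [hz]; norm_num
  rw [Complex.sq_norm, Complex.normSq_apply, hre1] at h2
  have him : z.im = 0 := by
    have : z.im * z.im = 0 := by linarith
    exact mul_self_eq_zero.mp this
  apply Complex.ext
  · simpa using hre1
  · simpa using him

/-! ## 2. Characters of an ultrametric field are locally constant -/

section Ultra

variable {k : Type} [NormedField k] [IsUltrametricDist k]

/-- A continuous unitary additive character is trivial on a ball. -/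
theorem char_trivial_near487 (ψ : k → ℂ) (hψ : IsCharL ψ) :
    ∃ δ : ℝ, 0 < δ ∧ ∀ x : k, ‖x‖ < δ → ψ x = 1 := by
  obtain ⟨hcont, hadd, hnorm, -⟩ := hψ
  have h0 : ψ 0 = 1 := by
    have h1 : ψ 0 = ψ 0 * ψ 0 := by
      have := hadd 0 0
      rwa [add_zero] at this
    have h2 : ψ 0 ≠ 0 := by
      intro h
      have := hnorm 0
      rw [h, norm_zero] at this
      exact zero_ne_one this
    have h3 : ψ 0 * 1 = ψ 0 * ψ 0 := by rw [mul_one]; exact h1
    exact (mul_left_cancel₀ h2 h3).symm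
  have hc0 : ContinuousAt ψ 0 := hcont.continuousAt
  rw [Metric.continuousAt_iff] at hc0
  obtain ⟨δ, hδ, hball⟩ := hc0 1 one_pos
  refine ⟨δ, hδ, fun x hx => ?_⟩
  have hpow : ∀ j : ℕ, ∃ y : k, ‖y‖ < δ ∧ ψ y = ψ x ^ (2 ^ j) := by
    intro j
    induction j with
    | zero => exact ⟨x, hx, by simp⟩
    | succ j ih =>
      obtain ⟨y, hy, hyψ⟩ := ih
      refine ⟨y + y, ?_, ?_⟩
      · have := IsUltrametricDist.norm_add_le_max y y
        rw [max_self] at this
        exact lt_of_le_of_lt this hy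
      · rw [hadd, hyψ, ← pow_add]
        congr 1
        rw [pow_succ]
        ring
  apply eq_one_of_pow_close487 _ (hnorm x)
  intro j
  obtain ⟨y, hy, hyψ⟩ := hpow j
  have := hball (x := y) (by rwa [dist_zero_right])
  rwa [h0, hyψ, dist_eq_norm] at this

/-- A continuous unitary additive character of an ultrametric field is locally constant. -/
theorem char_locallyConstant487 (ψ : k → ℂ) (hψ : IsCharL ψ) : IsLocallyConstant ψ := by
  obtain ⟨δ, hδ, htriv⟩ := char_trivial_near487 ψ hψ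
  rw [IsLocallyConstant.iff_eventually_eq]
  intro x
  filter_upwards [Metric.ball_mem_nhds x hδ] with y hy
  have e : y = x + (y - x) := by ring
  rw [e, hψ.2.1, htriv (y - x) (by rwa [Metric.mem_ball, dist_eq_norm] at hy), mul_one]

/-! ## 3. Schwartz--Bruhat functions -/

omit [IsUltrametricDist k] in
theorem continuous_qfL487 (t n : k) : Continuous (qfL t n) := by
  unfold qfL
  fun_prop

omit [IsUltrametricDist k] in
theorem isSB_lc_mul487 {f Φ : k × k → ℂ} (hf : IsLocallyConstant f) (hΦ : IsSB Φ) :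
    IsSB (fun ξ => f ξ * Φ ξ) :=
  ⟨hf.mul hΦ.1, HasCompactSupport.mul_left (f := f) hΦ.2⟩

theorem isSB_const_mul487 (c : ℂ) {Φ : k × k → ℂ} (hΦ : IsSB Φ) :
    IsSB (fun ξ => c * Φ ξ) :=
  isSB_lc_mul487 (IsLocallyConstant.const c) hΦ

omit [IsUltrametricDist k] in
theorem isSB_dilate487 (a : k) (ha : a ≠ 0) {Φ : k × k → ℂ} (hΦ : IsSB Φ) :
    IsSB (fun ξ => Φ (a • ξ)) := by
  refine ⟨hΦ.1.comp_continuous (continuous_const_smul a), ?_⟩
  exact hΦ.2.comp_homeomorph (Homeomorph.smulOfNeZero a ha)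

theorem char_qf_lc487 (t n : k) (ψ : k → ℂ) (hψ : IsCharL ψ) (s : k) :
    IsLocallyConstant (fun ξ : k × k => ψ (s * qfL t n ξ)) :=
  (char_locallyConstant487 ψ hψ).comp_continuous (continuous_const.mul (continuous_qfL487 t n))

omit [IsUltrametricDist k] in
theorem bfL_smul487 (t n s : k) (ξ y : k × k) :
    bfL t n (s • ξ) y = s * bfL t n ξ y := by
  simp only [bfL, qfL, Prod.fst_add, Prod.snd_add, Prod.smul_fst, Prod.smul_snd, smul_eq_mul]
  ring

/-! ## 4. The leaf -/

/-- `rOp h` preserves Schwartz--Bruhat functions (ultrametric field). -/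
theorem ropSbP487 (t n : k) (ψ : k → ℂ) (μ : @Measure k (borel k)) (γ : ℂ) (η : k → ℂ)
    (hψ : IsCharL ψ) (hFt : FtSbP t n ψ μ) : RopSbP t n ψ μ γ η := by
  intro h hdet Φ hΦ
  have hadd := hψ.2.1
  by_cases hc : h 1 0 = 0
  · -- the Borel case
    have ha : h 0 0 ≠ 0 := by
      intro h00
      rw [Matrix.det_fin_two, hc, h00] at hdet
      simp at hdet
    have e : rOp t n ψ μ γ η h Φ
        = fun ξ => (η (h 0 0) * ((‖h 0 0‖ : ℝ) : ℂ))
            * (ψ ((h 0 0 * h 0 1) * qfL t n ξ) * Φ (h 0 0 • ξ)) := by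
      funext ξ
      unfold rOp
      rw [if_pos hc]
      ring
    rw [e]
    exact isSB_const_mul487 _
      (isSB_lc_mul487 (char_qf_lc487 t n ψ hψ _) (isSB_dilate487 _ ha hΦ))
  · -- the big cell
    have hci : -(h 1 0)⁻¹ ≠ 0 := neg_ne_zero.mpr (inv_ne_zero hc)
    set Φ' : k × k → ℂ := fun y => ψ ((h 1 1 / h 1 0) * qfL t n y) * Φ y with hΦ'
    have hΦ'sb : IsSB Φ' := isSB_lc_mul487 (char_qf_lc487 t n ψ hψ _) hΦ
    have e : rOp t n ψ μ γ η h Φ
        = fun ξ => (γ * η (-(h 1 0)) * ((‖h 1 0‖⁻¹ : ℝ) : ℂ))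
            * (ψ ((h 0 0 / h 1 0) * qfL t n ξ) * ftL t n ψ μ Φ' (-(h 1 0)⁻¹ • ξ)) := by
      funext ξ
      unfold rOp
      rw [if_neg hc]
      congr 1
      have hint : (fun y => ψ ((h 0 0 * qfL t n ξ - bfL t n ξ y + h 1 1 * qfL t n y) / h 1 0) * Φ y)
          = fun y => ψ ((h 0 0 / h 1 0) * qfL t n ξ)
              * (Φ' y * ψ (bfL t n (-(h 1 0)⁻¹ • ξ) y)) := by
        funext y
        have e1 : (h 0 0 * qfL t n ξ - bfL t n ξ y + h 1 1 * qfL t n y) / h 1 0
            = (h 0 0 / h 1 0) * qfL t n ξ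
              + ((h 1 1 / h 1 0) * qfL t n y + bfL t n (-(h 1 0)⁻¹ • ξ) y) := by
          rw [bfL_smul487]
          field_simp
          ring
        rw [e1, hadd, hadd, hΦ']
        ring
      rw [hint]
      unfold ftL intL
      exact integral_const_mul _ _
    rw [e]
    exact isSB_const_mul487 _
      (isSB_lc_mul487 (char_qf_lc487 t n ψ hψ _) (isSB_dilate487 _ hci (hFt Φ' hΦ'sb)))

end Ultra

/-- **Leaf A2.03.1.1.06.15 `LF54.LeafRopSb`.** -/
theorem leafRopSb_h487 : LeafRopSb := by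
  intro K _ _ v t n ψ μ γ η hctx hFt
  exact ropSbP487 t n ψ μ γ η hctx.char hFt

end Fermat.Agent.LT.A2.H487

end
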