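import Fermat.Agent.LT.A2.H798.CpxSpec

/-!
# Row LT, tower A2, leaf A2.03.1.1.10.03 `CX798.TorC` (helper487), OFF-MAIN

`torC_h487 : CX798.TorC`, VERBATIM against `LT/A2/H798/CpxSpec.lean`
(helper798@5f07fac26, sha256 8ca2dc507058b836), byte-identical copy.  Mathlib only.

Proof.  `μ' = torMat t n a b`, `t = ω₁ + ω₂`, `n = ω₁ ω₂`, `λ'_i = a + b ω_i`:
`det μ' = λ'₁ λ'₂`, `lam ω_i (μ' m) = λ'_i lam ω_i m` (`ω_i² = t ω_i - n`),
`z_i (μ'⁻¹ ξ) = z_i ξ / λ'_i`, `rowN (d g) = ‖det μ'‖² rowN g`, `rowB (d g) = conj (det μ') rowB g`.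
-/

set_option autoImplicit false

open scoped ComplexConjugate

noncomputable section

namespace Fermat.Agent.LT.A2.H487

open Fermat.Agent.LT.A2 Fermat.Agent.LT.A2.WX467 Fermat.Agent.LT.A2.CX798

/-- `det (torMat t n a b) = (a + b ω₁)(a + b ω₂)`. -/
theorem det_torMat487 (ω₁ ω₂ a b : ℂ) :
    (torMat (ω₁ + ω₂) (ω₁ * ω₂) a b).det = (a + b * ω₁) * (a + b * ω₂) := by
  simp only [torMat, Matrix.det_fin_two_of]
  ring

/-- `lam ω₁ (μ' m) = λ'₁ lam ω₁ m`. -/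
theorem lam_one_torMat487 (ω₁ ω₂ a b : ℂ) (m : Matrix (Fin 2) (Fin 2) ℂ) :
    lam ω₁ (torMat (ω₁ + ω₂) (ω₁ * ω₂) a b * m) = (a + b * ω₁) * lam ω₁ m := by
  simp only [lam, torMat, Matrix.mul_apply, Fin.sum_univ_two, Matrix.of_apply,
    Matrix.cons_val', Matrix.cons_val_zero, Matrix.cons_val_one, Matrix.empty_val',
    Matrix.cons_val_fin_one]
  ring

/-- `lam ω₂ (μ' m) = λ'₂ lam ω₂ m`. -/
theorem lam_two_torMat487 (ω₁ ω₂ a b : ℂ) (m : Matrix (Fin 2) (Fin 2) ℂ) :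
    lam ω₂ (torMat (ω₁ + ω₂) (ω₁ * ω₂) a b * m) = (a + b * ω₂) * lam ω₂ m := by
  simp only [lam, torMat, Matrix.mul_apply, Fin.sum_univ_two, Matrix.of_apply,
    Matrix.cons_val', Matrix.cons_val_zero, Matrix.cons_val_one, Matrix.empty_val',
    Matrix.cons_val_fin_one]
  ring

/-- The inverse of `torMat`, entrywise. -/
theorem inv_torMat487 (ω₁ ω₂ a b : ℂ) :
    (torMat (ω₁ + ω₂) (ω₁ * ω₂) a b)⁻¹
      = ((a + b * ω₁) * (a + b * ω₂))⁻¹ •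
          !![a + (ω₁ + ω₂) * b, ω₁ * ω₂ * b; -b, a] := by
  rw [Matrix.inv_def, Ring.inverse_eq_inv', det_torMat487]
  congr 1
  simp only [torMat, Matrix.adjugate_fin_two_of, neg_neg]

/-- The first split coordinate of `μ'⁻¹ ξ`. -/
theorem z_one_actL487 (ω₁ ω₂ a b : ℂ)
    (hdet : (torMat (ω₁ + ω₂) (ω₁ * ω₂) a b).det ≠ 0) (ξ : ℂ × ℂ) :
    (actL (torMat (ω₁ + ω₂) (ω₁ * ω₂) a b)⁻¹ ξ).1
        + ω₁ * (actL (torMat (ω₁ + ω₂) (ω₁ * ω₂) a b)⁻¹ ξ).2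
      = (ξ.1 + ω₁ * ξ.2) / (a + b * ω₁) := by
  have hd := hdet
  rw [det_torMat487] at hd
  have h1 : a + b * ω₁ ≠ 0 := left_ne_zero_of_mul hd
  have h2 : a + b * ω₂ ≠ 0 := right_ne_zero_of_mul hd
  rw [inv_torMat487 ω₁ ω₂ a b]
  simp only [actL, Matrix.smul_apply, Matrix.of_apply, Matrix.cons_val', Matrix.cons_val_zero,
    Matrix.cons_val_one, Matrix.empty_val', Matrix.cons_val_fin_one, smul_eq_mul]
  field_simp
  ring

/-- The second split coordinate of `μ'⁻¹ ξ`. -/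
theorem z_two_actL487 (ω₁ ω₂ a b : ℂ)
    (hdet : (torMat (ω₁ + ω₂) (ω₁ * ω₂) a b).det ≠ 0) (ξ : ℂ × ℂ) :
    (actL (torMat (ω₁ + ω₂) (ω₁ * ω₂) a b)⁻¹ ξ).1
        + ω₂ * (actL (torMat (ω₁ + ω₂) (ω₁ * ω₂) a b)⁻¹ ξ).2
      = (ξ.1 + ω₂ * ξ.2) / (a + b * ω₂) := by
  have hd := hdet
  rw [det_torMat487] at hd
  have h1 : a + b * ω₁ ≠ 0 := left_ne_zero_of_mul hd
  have h2 : a + b * ω₂ ≠ 0 := right_ne_zero_of_mul hd
  rw [inv_torMat487 ω₁ ω₂ a b]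
  simp only [actL, Matrix.smul_apply, Matrix.of_apply, Matrix.cons_val', Matrix.cons_val_zero,
    Matrix.cons_val_one, Matrix.empty_val', Matrix.cons_val_fin_one, smul_eq_mul]
  field_simp
  ring

/-- `rowN (d(δ) g) = ‖δ‖² rowN g`. -/
theorem rowN_diag487 (δ : ℂ) (g : Matrix (Fin 2) (Fin 2) ℂ) :
    rowN (!![1, 0; 0, δ] * g) = ‖δ‖ ^ 2 * rowN g := by
  simp only [rowN, Matrix.mul_apply, Fin.sum_univ_two, Matrix.of_apply, Matrix.cons_val',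
    Matrix.cons_val_zero, Matrix.cons_val_one, Matrix.empty_val', Matrix.cons_val_fin_one,
    zero_mul, zero_add, norm_mul]
  ring

/-- `rowB (d(δ) g) = conj δ · rowB g`. -/
theorem rowB_diag487 (δ : ℂ) (g : Matrix (Fin 2) (Fin 2) ℂ) :
    rowB (!![1, 0; 0, δ] * g) = conj δ * rowB g := by
  simp only [rowB, Matrix.mul_apply, Fin.sum_univ_two, Matrix.of_apply, Matrix.cons_val',
    Matrix.cons_val_zero, Matrix.cons_val_one, Matrix.empty_val', Matrix.cons_val_fin_one,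
    zero_mul, zero_add, one_mul, add_zero, map_mul]
  ring

/-- `Re (x conj δ) / ‖δ‖² = Re (x / δ)`. -/
theorem re_div487 (x δ : ℂ) (hδ : δ ≠ 0) :
    (x * conj δ).re / ‖δ‖ ^ 2 = (x / δ).re := by
  have hn : (‖δ‖ ^ 2 : ℝ) ≠ 0 := by positivity
  have h : x / δ = x * conj δ * (((‖δ‖ ^ 2 : ℝ) : ℂ))⁻¹ := by
    have hc : ((‖δ‖ ^ 2 : ℝ) : ℂ) = δ * conj δ := by
      rw [Complex.mul_conj, Complex.normSq_eq_norm_sq]
    have hcδ : conj δ ≠ 0 := by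
      simpa using hδ
    rw [hc]
    field_simp
  rw [h, ← Complex.ofReal_inv, Complex.re_mul_ofReal]
  field_simp

/-- **Leaf A2.03.1.1.10.03 `CX798.TorC`.** -/
theorem torC_h487 : TorC := by
  intro c ω₁ ω₂ μ' hμ hdet g m ξ hadm
  obtain ⟨a, b, rfl⟩ := hμ
  have hd := hdet
  rw [det_torMat487] at hd
  have h1 : a + b * ω₁ ≠ 0 := left_ne_zero_of_mul hd
  have h2 : a + b * ω₂ ≠ 0 := right_ne_zero_of_mul hd
  have hn1 : ‖a + b * ω₁‖ ≠ 0 := norm_ne_zero_iff.mpr h1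
  have hn2 : ‖a + b * ω₂‖ ≠ 0 := norm_ne_zero_iff.mpr h2
  -- the bottom row of `g` is not zero
  have hN : rowN g ≠ 0 := by
    intro h0
    have hg : g.det ≠ 0 := by rw [hadm.2.1]; exact hadm.2.2
    apply hg
    have h10 : ‖g 1 0‖ ^ 2 = 0 := by
      have := sq_nonneg ‖g 1 0‖
      have := sq_nonneg ‖g 1 1‖
      unfold rowN at h0
      linarith
    have h11 : ‖g 1 1‖ ^ 2 = 0 := by
      have := sq_nonneg ‖g 1 0‖
      have := sq_nonneg ‖g 1 1‖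
      unfold rowN at h0
      linarith
    have e10 : g 1 0 = 0 := by
      have := pow_eq_zero_iff (n := 2) (by norm_num) |>.mp h10
      exact norm_eq_zero.mp this
    have e11 : g 1 1 = 0 := by
      have := pow_eq_zero_iff (n := 2) (by norm_num) |>.mp h11
      exact norm_eq_zero.mp this
    rw [Matrix.det_fin_two, e10, e11]
    ring
  unfold FC
  rw [lam_one_torMat487, lam_two_torMat487, z_one_actL487 ω₁ ω₂ a b hdet,
    z_two_actL487 ω₁ ω₂ a b hdet, rowN_diag487, rowB_diag487, det_torMat487]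
  set z₁ : ℂ := ξ.1 + ω₁ * ξ.2 with hz₁
  set z₂ : ℂ := ξ.1 + ω₂ * ξ.2 with hz₂
  set l₁ : ℂ := lam ω₁ m with hl₁
  set l₂ : ℂ := lam ω₂ m with hl₂
  set p₁ : ℂ := a + b * ω₁ with hp₁
  set p₂ : ℂ := a + b * ω₂ with hp₂
  set N : ℝ := rowN g with hNdef
  set B : ℂ := rowB g with hBdef
  have hsq : Real.sqrt (‖p₁ * p₂‖ ^ 2) = ‖p₁‖ * ‖p₂‖ := by
    rw [Real.sqrt_sq (norm_nonneg _), norm_mul]
  -- the three real identities
  have hpre : Real.sqrt (‖p₁ * p₂‖ ^ 2) * (‖p₁ * l₁ * (p₂ * l₂)‖ / (‖p₁ * p₂‖ ^ 2 * N))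
      = ‖l₁ * l₂‖ / N := by
    rw [hsq]
    simp only [norm_mul]
    field_simp
  have hre : -(2 * Real.pi * ‖c‖ * (‖p₂ * l₂ * z₁‖ ^ 2 + ‖p₁ * l₁ * z₂‖ ^ 2)
        / (‖p₁ * p₂‖ ^ 2 * N))
      = -(2 * Real.pi * ‖c‖ * (‖l₂ * (z₁ / p₁)‖ ^ 2 + ‖l₁ * (z₂ / p₂)‖ ^ 2) / N) := by
    simp only [norm_mul, norm_div]
    field_simp
  have him : (c * (conj (p₁ * p₂) * B) * (z₁ * z₂)).re / (‖p₁ * p₂‖ ^ 2 * N)
      = (c * B * (z₁ / p₁ * (z₂ / p₂))).re / N := by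
    have e1 : c * (conj (p₁ * p₂) * B) * (z₁ * z₂) = (c * B * (z₁ * z₂)) * conj (p₁ * p₂) := by
      ring
    have e2 : c * B * (z₁ / p₁ * (z₂ / p₂)) = (c * B * (z₁ * z₂)) / (p₁ * p₂) := by
      field_simp
    rw [e1, e2, ← re_div487 _ _ hd, div_div]
  rw [← mul_assoc, ← Complex.ofReal_mul, hpre, hre, him]

end Fermat.Agent.LT.A2.H487

end
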